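import Fermat.Agent.S59.Arch.SpecNM

/-!
# Row S59, cell NM, LEAF RFD (helper686): `Arch.ResFrobOfDatumStatement`

The residual Hecke character `θ` of a Hecke–Galois datum `H` over `T` whose residual
representation is (equivalent to) `ρ̄ ⊗ k(T)` is the Frobenius character of `ρ̄`:

`charpoly ρ̄(Frob_ℓ) ↦ charpoly (ρ̄ ⊗ k(T))(Frob_ℓ) = charpoly ρ_T^{res}(Frob_ℓ)
   = (X² - π(T_ℓ) X + ℓ) mod 𝔪_T = ι (X² - θ(T_ℓ) X + ℓ)`  and `ι : k(𝒪) → k(T)` is injective.

* `rfd_charpoly_residual`, `rfd_charpoly_baseChangeAlong`, `rfd_charpoly_equiv`: the three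
  dictionary steps (kept local to keep the import closure small).
* `resFrobOfDatum : Arch.ResFrobOfDatumStatement` (verbatim).
-/

set_option autoImplicit false

open Polynomial IsLocalRing

namespace Fermat.Agent.S59.H686

/-- The characteristic polynomial of `ρ̄(σ)` is the reduction of that of `ρ(σ)`. -/
theorem rfd_charpoly_residual {A : Type} [CommRing A] [IsLocalRing A] (ρ : GaloisRepAdic A)
    (σ : AlgebraicClosure ℚ ≃ₐ[ℚ] AlgebraicClosure ℚ) :
    LinearMap.charpoly (ρ.residual.ρ σ) = (LinearMap.charpoly (ρ.ρ σ)).map (residue A) :=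
  LinearMap.charpoly_baseChange (A := ResidueField A) (ρ.ρ σ)

/-- Characteristic polynomials commute with base change of residual representations. -/
theorem rfd_charpoly_baseChangeAlong {k k' : Type} [Field k] [Field k'] (ι : k →+* k')
    (ρbar : ResidualGaloisRep k) (σ : AlgebraicClosure ℚ ≃ₐ[ℚ] AlgebraicClosure ℚ) :
    LinearMap.charpoly ((ρbar.baseChangeAlong ι).ρ σ) =
      (LinearMap.charpoly (ρbar.ρ σ)).map ι := by
  letI : Algebra k k' := ι.toAlgebra
  show LinearMap.charpoly ((ρbar.ρ σ).baseChange k') = _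
  rw [LinearMap.charpoly_baseChange]
  rfl

/-- Equivalent residual representations have the same characteristic polynomials. -/
theorem rfd_charpoly_equiv {k : Type} [Field k] {ρ₁ ρ₂ : ResidualGaloisRep k}
    (e : ResidualGaloisRep.Equiv ρ₁ ρ₂) (σ : AlgebraicClosure ℚ ≃ₐ[ℚ] AlgebraicClosure ℚ) :
    LinearMap.charpoly (ρ₁.ρ σ) = LinearMap.charpoly (ρ₂.ρ σ) := by
  have h1 : ρ₂.ρ σ = e.toLinearEquiv.conj (ρ₁.ρ σ) := by
    refine LinearMap.ext fun y => ?_
    rw [LinearEquiv.conj_apply_apply, e.map_apply, LinearEquiv.apply_symm_apply]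
  rw [h1, LinearEquiv.charpoly_conj]

/-- **LEAF RFD** of cell NM (`Arch.ResFrobOfDatumStatement`, verbatim). -/
theorem resFrobOfDatum : Arch.ResFrobOfDatumStatement := by
  intro N _ S 𝒪 _ _ _ _ ρbar θ T _ _ _ _ _ _ _ _ H hEq
  intro ℓ hℓ hℓN hℓS B hB σ hσ
  obtain ⟨e⟩ := hEq
  set ι : ResidueField 𝒪 →+* ResidueField T := ResidueField.map (algebraMap 𝒪 T) with hι
  have h1 := H.charpoly_frob ℓ hℓ hℓN hℓS B hB σ hσ
  have h2 := rfd_charpoly_residual H.ρ σ
  have h3 := rfd_charpoly_equiv e σ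
  have h4 := rfd_charpoly_baseChangeAlong ι ρbar σ
  apply Polynomial.map_injective ι ι.injective
  rw [← h4, ← h3, h2, h1]
  simp only [Polynomial.map_sub, Polynomial.map_add, Polynomial.map_mul, Polynomial.map_pow,
    Polynomial.map_X, Polynomial.map_C, map_natCast, Polynomial.map_natCast, H.residue_π, hι]
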