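import Fermat.Agent.S59.Arch.Glue3
import Fermat.Agent.S53.Dict

/-!
# Row S59 — the two small dictionary cells RED and ID of `Arch/Glue3` (helper686)

* `residualOfAdic : Arch.ResidualOfAdicStatement` (**RED**): a deformation condition satisfied by
  `ρ` over `𝒪` is satisfied by any model of its residual representation.
* `residualId : Arch.ResidualIdStatement` (**ID**): base change of a residual representation along
  the identity of the residue field.

Both go through the matrix dictionary `S53/Dict`.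
-/

set_option autoImplicit false

open IsLocalRing

namespace Fermat.Agent.S59.H686

open Fermat.Agent.S53

section Field

variable {k : Type} [Field k]

/-- An equivalence of residual representations is an equivalence of the associated
adic representations over the field. -/
def ofResidualEquiv {ρ₁ ρ₂ : ResidualGaloisRep k} (e : ResidualGaloisRep.Equiv ρ₁ ρ₂) :
    GaloisRepAdic.Equiv (GaloisRepAdic.ofResidualGaloisRep ρ₁)
      (GaloisRepAdic.ofResidualGaloisRep ρ₂) :=
  { toLinearEquiv := e.toLinearEquiv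
    map_apply := e.map_apply }

theorem ofResidual_isEquiv {ρ₁ ρ₂ : ResidualGaloisRep k} (h : ρ₁.IsEquiv ρ₂) :
    (GaloisRepAdic.ofResidualGaloisRep ρ₁).IsEquiv (GaloisRepAdic.ofResidualGaloisRep ρ₂) := by
  obtain ⟨e⟩ := h
  exact ⟨ofResidualEquiv e⟩

/-- The matrix models: `toAdic` over a field is `ofResidualGaloisRep` of `toRes`. -/
theorem toAdic_isEquiv_ofResidual_toRes (r r' : GQ →* M2 k) (hr : MatCont r)
    (hr' : GaloisFactorsThroughFiniteLevel r') (h : r = r') :
    (toAdic r hr).IsEquiv (GaloisRepAdic.ofResidualGaloisRep (toRes r' hr')) := by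
  subst h
  exact ⟨⟨LinearEquiv.refl k (Fin 2 → k), fun _ _ => rfl⟩⟩

end Field

/-- The residue field is an Artinian test algebra. -/
theorem isArtinianTestAlgebra_residueField (𝒪 : Type) [CommRing 𝒪] [IsLocalRing 𝒪] :
    GaloisRep.IsArtinianTestAlgebra 𝒪 (ResidueField 𝒪) where
  isLocalHom := inferInstanceAs (IsLocalHom (residue 𝒪))
  residue_surjective := (residue_surjective (R := ResidueField 𝒪)).comp
    (residue_surjective (R := 𝒪))
  isArtinian := inferInstance

/-- **RED.** -/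
theorem residualOfAdic : Arch.ResidualOfAdicStatement := by
  intro 𝒪 _ _ _ _ 𝒟 h𝒟 ρ ρbar hres hD
  have hT := isArtinianTestAlgebra_residueField 𝒪
  have hloc : IsLocalHom (algebraMap 𝒪 𝒪) := inferInstanceAs (IsLocalHom (RingHom.id 𝒪))
  have hsurj : Function.Surjective (residue 𝒪 ∘ algebraMap 𝒪 𝒪) := residue_surjective
  have hq : IsLocalHom ((Algebra.ofId 𝒪 (ResidueField 𝒪) : 𝒪 →ₐ[𝒪] ResidueField 𝒪) :
      𝒪 →+* ResidueField 𝒪) := inferInstanceAs (IsLocalHom (residue 𝒪))
  have h1 := (h𝒟.iff_forall_surjective hloc hsurj ρ).1 hD hT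
    (Algebra.ofId 𝒪 (ResidueField 𝒪)) hq residue_surjective
  refine h𝒟.of_isEquiv hT ?_ h1
  obtain ⟨r, hr, ⟨e0⟩⟩ := exists_toAdic ρ
  obtain ⟨e1⟩ := baseChangeAlong_toAdic
    ((Algebra.ofId 𝒪 (ResidueField 𝒪) : 𝒪 →ₐ[𝒪] ResidueField 𝒪) : 𝒪 →+* ResidueField 𝒪) hq r hr
  obtain ⟨e2⟩ := toAdic_isEquiv_ofResidual_toRes
    (mapRep ((Algebra.ofId 𝒪 (ResidueField 𝒪) : 𝒪 →ₐ[𝒪] ResidueField 𝒪) :
      𝒪 →+* ResidueField 𝒪) r) (mapRep (residue 𝒪) r) (hr.map _ hq) hr.factors_residue rfl
  obtain ⟨e3⟩ := residual_toAdic r hr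
  obtain ⟨e4⟩ := hres
  exact ⟨((e0.baseChangeAlong _ hq).trans e1).trans
    (e2.trans (ofResidualEquiv (e3.symm.trans (e0.residual.symm.trans e4))))⟩

/-- **ID.** -/
theorem residualId : Arch.ResidualIdStatement := by
  intro 𝒪 _ _ ρbar
  obtain ⟨rb, hrb, ⟨e0⟩⟩ := exists_toRes ρbar
  obtain ⟨e1⟩ := baseChangeAlong_toRes (ResidueField.map (algebraMap 𝒪 𝒪)) rb hrb
  have h2 : (toRes rb hrb).IsEquiv (toRes (mapRep (ResidueField.map (algebraMap 𝒪 𝒪)) rb)
      (factors_mapRep (ResidueField.map (algebraMap 𝒪 𝒪)) hrb)) := by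
    rw [toRes_isEquiv_iff]
    refine ⟨1, fun σ => ?_⟩
    have hid : ResidueField.map (algebraMap 𝒪 𝒪) = RingHom.id (ResidueField 𝒪) :=
      ResidueField.map_id
    have h3 : mapRep (ResidueField.map (algebraMap 𝒪 𝒪)) rb σ = rb σ := by
      rw [hid, mapRep_id]
    rw [h3, Units.val_one, one_mul, mul_one]
  obtain ⟨e2⟩ := h2
  exact ⟨e0.trans (e2.trans (e1.symm.trans (e0.baseChangeAlong _).symm))⟩

end Fermat.Agent.S59.H686
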